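/-
Fermat/Agent/T1B/Alg81/EvalDual.lean  (helper81) -- T1B, brick T-ALG part ALG-b, Mathlib only.

For ideals `I`, `J` of a commutative ring with `I * J = (v)`, `v` a nonzerodivisor, and
`I ⊔ J = ⊤`: evaluation at `v` is an `R`-linear bijection `Hom_R(I, R) ≃ J`
(the concrete form of `I⁻¹ = v⁻¹ J`).  No invertibility of `I`, `J` is assumed.
-/
import Mathlib

set_option autoImplicit false

namespace Fermat.Agent.T1B.Alg81

variable {R : Type*} [CommRing R] {I J : Ideal R} {v : R}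

theorem mem_left_of_mul_eq_span (h : I * J = Ideal.span {v}) : v ∈ I := by
  have h1 : v ∈ I * J := by rw [h]; exact Ideal.mem_span_singleton_self v
  exact Ideal.mul_le_left h1

theorem mem_right_of_mul_eq_span (h : I * J = Ideal.span {v}) : v ∈ J := by
  have h1 : v ∈ I * J := by rw [h]; exact Ideal.mem_span_singleton_self v
  exact Ideal.mul_le_right h1

/-- For `x ∈ J` and `α ∈ I` the product lies in `(v)`. -/
theorem mul_mem_span_of_mem (h : I * J = Ideal.span {v}) {x α : R} (hx : x ∈ J) (hα : α ∈ I) :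
    x * α ∈ Ideal.span {v} := by
  have h1 := Ideal.mul_mem_mul hα hx
  rw [h] at h1
  rwa [mul_comm]

/-- **Division by a nonzerodivisor**: if `x * α ∈ (v)` for all `α ∈ I`, then `α ↦ x * α / v` is a
linear form on `I`. -/
noncomputable def divLin (hv : v ∈ nonZeroDivisors R) (x : R)
    (h : ∀ α ∈ I, x * α ∈ Ideal.span {v}) : I →ₗ[R] R where
  toFun α := (Ideal.mem_span_singleton'.1 (h α α.2)).choose
  map_add' α β := by
    have hα := (Ideal.mem_span_singleton'.1 (h α α.2)).choose_spec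
    have hβ := (Ideal.mem_span_singleton'.1 (h β β.2)).choose_spec
    have hαβ := (Ideal.mem_span_singleton'.1 (h (α + β) (α + β).2)).choose_spec
    apply (mul_cancel_right_mem_nonZeroDivisors hv).1
    rw [hαβ, add_mul, hα, hβ]
    ring
  map_smul' r α := by
    have hα := (Ideal.mem_span_singleton'.1 (h α α.2)).choose_spec
    have hrα := (Ideal.mem_span_singleton'.1 (h (r • α) (r • α).2)).choose_spec
    apply (mul_cancel_right_mem_nonZeroDivisors hv).1
    rw [hrα, RingHom.id_apply]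
    have h3 : (r • (Ideal.mem_span_singleton'.1 (h α α.2)).choose) * v =
        r * ((Ideal.mem_span_singleton'.1 (h α α.2)).choose * v) := by
      rw [smul_eq_mul, mul_assoc]
    rw [h3, hα]
    simp only [smul_eq_mul]
    ring

theorem divLin_mul (hv : v ∈ nonZeroDivisors R) (x : R)
    (h : ∀ α ∈ I, x * α ∈ Ideal.span {v}) (α : I) : divLin hv x h α * v = x * α :=
  (Ideal.mem_span_singleton'.1 (h α α.2)).choose_spec

/-- A linear form on `I` satisfies `ψ(a) * b = ψ(b) * a` for `a b ∈ I`. -/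
theorem dual_mul_comm (ψ : Module.Dual R I) (a b : I) : ψ a * (b : R) = ψ b * (a : R) := by
  have h1 : (b : R) • a = (a : R) • b := Subtype.ext (by simp [mul_comm])
  have h2 := congrArg ψ h1
  rw [map_smul, map_smul, smul_eq_mul, smul_eq_mul] at h2
  rw [mul_comm, h2, mul_comm]

theorem dual_apply_mem (hmul : I * J = Ideal.span {v}) (hsup : I ⊔ J = ⊤) (ψ : Module.Dual R I) :
    ψ ⟨v, mem_left_of_mul_eq_span hmul⟩ ∈ J := by
  obtain ⟨α, hα, β, hβ, hαβ⟩ := Submodule.mem_sup.1 (hsup ▸ Submodule.mem_top : (1 : R) ∈ I ⊔ J)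
  have h1 : ψ ⟨v, mem_left_of_mul_eq_span hmul⟩ =
      ψ ⟨v, mem_left_of_mul_eq_span hmul⟩ * α + ψ ⟨v, mem_left_of_mul_eq_span hmul⟩ * β := by
    rw [← mul_add, hαβ, mul_one]
  rw [h1]
  refine J.add_mem ?_ (J.mul_mem_left _ hβ)
  have h2 := dual_mul_comm ψ ⟨v, mem_left_of_mul_eq_span hmul⟩ ⟨α, hα⟩
  simp only at h2
  rw [h2]
  exact J.mul_mem_left _ (mem_right_of_mul_eq_span hmul)

/-- **Evaluation at `v`**, `Hom_R(I, R) → J`. -/
noncomputable def evalV (hmul : I * J = Ideal.span {v}) (hsup : I ⊔ J = ⊤) :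
    Module.Dual R I →ₗ[R] J where
  toFun ψ := ⟨ψ ⟨v, mem_left_of_mul_eq_span hmul⟩, dual_apply_mem hmul hsup ψ⟩
  map_add' ψ φ := Subtype.ext (by simp)
  map_smul' r ψ := Subtype.ext (by simp)

@[simp] theorem evalV_coe (hmul : I * J = Ideal.span {v}) (hsup : I ⊔ J = ⊤)
    (ψ : Module.Dual R I) :
    ((evalV hmul hsup ψ : J) : R) = ψ ⟨v, mem_left_of_mul_eq_span hmul⟩ := rfl

theorem evalV_injective (hv : v ∈ nonZeroDivisors R) (hmul : I * J = Ideal.span {v})
    (hsup : I ⊔ J = ⊤) : Function.Injective (evalV hmul hsup) := by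
  rw [← LinearMap.ker_eq_bot, LinearMap.ker_eq_bot']
  intro ψ hψ
  have h0 : ψ ⟨v, mem_left_of_mul_eq_span hmul⟩ = 0 := congrArg Subtype.val hψ
  ext α
  have h2 := dual_mul_comm ψ α ⟨v, mem_left_of_mul_eq_span hmul⟩
  simp only at h2
  rw [h0, zero_mul] at h2
  rw [LinearMap.zero_apply]
  exact (mul_right_mem_nonZeroDivisors_eq_zero_iff hv).1 h2

theorem evalV_surjective (hv : v ∈ nonZeroDivisors R) (hmul : I * J = Ideal.span {v})
    (hsup : I ⊔ J = ⊤) : Function.Surjective (evalV hmul hsup) := by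
  intro x
  have h : ∀ α ∈ I, (x : R) * α ∈ Ideal.span {v} := fun α hα => mul_mem_span_of_mem hmul x.2 hα
  refine ⟨divLin hv x h, Subtype.ext ?_⟩
  rw [evalV_coe]
  have := divLin_mul hv x h ⟨v, mem_left_of_mul_eq_span hmul⟩
  exact (mul_cancel_right_mem_nonZeroDivisors hv).1 this

theorem evalV_bijective (hv : v ∈ nonZeroDivisors R) (hmul : I * J = Ideal.span {v})
    (hsup : I ⊔ J = ⊤) : Function.Bijective (evalV hmul hsup) :=
  ⟨evalV_injective hv hmul hsup, evalV_surjective hv hmul hsup⟩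

/-- Evaluation at `v` as a linear equivalence `Hom_R(I, R) ≃ J`. -/
noncomputable def evalVEquiv (hv : v ∈ nonZeroDivisors R) (hmul : I * J = Ideal.span {v})
    (hsup : I ⊔ J = ⊤) : Module.Dual R I ≃ₗ[R] J :=
  LinearEquiv.ofBijective (evalV hmul hsup) (evalV_bijective hv hmul hsup)

@[simp] theorem evalVEquiv_coe (hv : v ∈ nonZeroDivisors R) (hmul : I * J = Ideal.span {v})
    (hsup : I ⊔ J = ⊤) (ψ : Module.Dual R I) :
    ((evalVEquiv hv hmul hsup ψ : J) : R) = ψ ⟨v, mem_left_of_mul_eq_span hmul⟩ := rfl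

end Fermat.Agent.T1B.Alg81
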