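/-
Fermat/Agent/T1B/Alg81/GlueLine.lean  (helper81) -- T1B, brick T-ALG part ALG-b, abstract layer.

The line two-chart module `M_v` glued from an invertible ideal `b0` of `R0` on chart 0 and the
DUAL of an invertible ideal `b1` of `R1` on chart 1, along `x ↦ x / v` on the overlap, where
`b1 R01 * b0 R01 = (v)`, `b1 R01 + b0 R01 = (1)`, `v` a nonzerodivisor of `R01`:

  `N0 = b0`,  `N1 = Hom_{R1}(b1, R1)`,  `N01 = b0 R01`,
  `r0 = inclusion`,  `r1 φ = φ_{R01}(v)`   (evaluation at `v` of the extension of `φ`).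

If a cube of rings `(R0, R1, R01) → (R0', R1', R01')` maps some `u0 ∈ b0` and some `u1 ∈ b1` to
units, the base change of `M_v` to the primed rings is the Čech line of the image of `v`.
-/
import Mathlib
import Fermat.Agent.Jac.Core
import Fermat.Agent.Jac.JSmooth85Alg
import Fermat.Agent.Jac.JGroup85Pic
import Fermat.Agent.Jac.LineOps39.Dual
import Fermat.Agent.T1.RedIface75
import Fermat.Agent.T1B.Alg81.EvalDual

set_option autoImplicit false
set_option linter.unusedSectionVars false

open TensorProduct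

namespace Fermat.Agent.T1B.Alg81

open Fermat.Agent.Jac Fermat.Agent.Jac.LineOps39 Fermat.Agent.Jac.JSmooth85Alg
  Fermat.Agent.Jac.JGroup85Pic Fermat.Agent.T1.RedIface75

universe u

section Loc

variable {R R' : Type u} [CommRing R] [CommRing R'] [Algebra R R']

/-- For a localisation `R → R'` away from `s`, the map `I → I R'` is a base change. -/
theorem isBaseChange_idealMap (s : R) [IsLocalization.Away s R'] (I : Ideal R) :
    IsBaseChange R' (Algebra.idealMap R' I) :=
  (isLocalizedModule_iff_isBaseChange (Submonoid.powers s) R' _).1 inferInstance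

end Loc

variable {A R0 R1 R01 : Type u} [CommRing A] [CommRing R0] [CommRing R1] [CommRing R01]
  [Algebra A R0] [Algebra A R1] [Algebra A R01] [Algebra R0 R01] [Algebra R1 R01]
  [IsScalarTower A R0 R01] [IsScalarTower A R1 R01]

/-- The gluing data of `M_v`. -/
structure GlueData (c : TwoChart A R0 R1 R01) where
  b0 : Ideal R0
  b1 : Ideal R1
  v : R01
  hv : v ∈ nonZeroDivisors R01
  inv0 : Module.Invertible R0 b0
  inv1 : Module.Invertible R1 b1
  hmul : b1.map (algebraMap R1 R01) * b0.map (algebraMap R0 R01) = Ideal.span {v}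
  hsup : b1.map (algebraMap R1 R01) ⊔ b0.map (algebraMap R0 R01) = ⊤

namespace GlueData

variable {c : TwoChart A R0 R1 R01} (D : GlueData c)

/-- The ideal `b0 R01`. -/
abbrev I01 : Ideal R01 := D.b0.map (algebraMap R0 R01)

/-- The ideal `b1 R01`. -/
abbrev J01 : Ideal R01 := D.b1.map (algebraMap R1 R01)

theorem bc_b0 : IsBaseChange R01 (Algebra.idealMap R01 D.b0) :=
  have := c.away0
  isBaseChange_idealMap c.t D.b0

theorem bc_b1 : IsBaseChange R01 (Algebra.idealMap R01 D.b1) :=
  have := c.away1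
  isBaseChange_idealMap c.s D.b1

theorem v_mem_J01 : D.v ∈ D.J01 := mem_left_of_mul_eq_span D.hmul

theorem v_mem_I01 : D.v ∈ D.I01 := mem_right_of_mul_eq_span D.hmul

/-- The restriction map on chart 1: `φ ↦ φ_{R01}(v)`. -/
noncomputable def r1 : Module.Dual R1 D.b1 →ₗ[R1] D.I01 :=
  ((evalVEquiv D.hv D.hmul D.hsup).toLinearMap.restrictScalars R1).comp (transposeBC D.bc_b1)

theorem r1_coe (φ : Module.Dual R1 D.b1) :
    ((D.r1 φ : D.I01) : R01) = transposeBC D.bc_b1 φ ⟨D.v, D.v_mem_J01⟩ := rfl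

theorem bc_r1 : IsBaseChange R01 D.r1 := by
  have := flat_R01_over_R1 c
  have := D.inv1
  have : Module.FinitePresentation R1 D.b1 := Module.finitePresentation_of_projective _ _
  exact (IsBaseChange.iff_of_equiv_comm (LinearEquiv.refl R1 (Module.Dual R1 D.b1))
    (evalVEquiv D.hv D.hmul D.hsup) (by ext; rfl)).1 (isBaseChange_transposeBC D.bc_b1)

/-- **The line `M_v`.** -/
noncomputable def line : QC2 A R0 R1 R01 where
  N0 := D.b0
  N1 := Module.Dual R1 D.b1
  N01 := D.I01
  r0 := Algebra.idealMap R01 D.b0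
  r1 := D.r1
  bc0 := D.bc_b0
  bc1 := D.bc_r1

theorem line_isLine : D.line.IsLine :=
  ⟨D.inv0, have := D.inv1; inferInstanceAs (Module.Invertible R1 (Module.Dual R1 D.b1))⟩

end GlueData

/-! ### Base change of `M_v` along a cube mapping `u0 ∈ b0`, `u1 ∈ b1` to units -/

section Cube

variable {A' R0' R1' R01' : Type u}
  [CommRing A'] [CommRing R0'] [CommRing R1'] [CommRing R01']
  [Algebra A' R0'] [Algebra A' R1'] [Algebra A' R01'] [Algebra R0' R01'] [Algebra R1' R01']
  [IsScalarTower A' R0' R01'] [IsScalarTower A' R1' R01']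
  [Algebra R0 R0'] [Algebra R1 R1'] [Algebra R01 R01']

section MulMap

variable {R R' : Type u} [CommRing R] [CommRing R'] [Algebra R R']

/-- The multiplication map `R' ⊗[R] I → R'` of an ideal `I` of `R`. -/
noncomputable def idealMul (I : Ideal R) : R' ⊗[R] I →ₗ[R'] R' :=
  LinearMap.liftBaseChange R' ((Algebra.linearMap R R').comp I.subtype)

@[simp] theorem idealMul_tmul (I : Ideal R) (y : R') (x : I) :
    idealMul (R' := R') I (y ⊗ₜ x) = y * algebraMap R R' x := by
  simp [idealMul]

theorem idealMul_bijective (I : Ideal R) [Module.Invertible R I] (u : R) (hu : u ∈ I)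
    (hunit : IsUnit (algebraMap R R' u)) : Function.Bijective (idealMul (R' := R') I) := by
  apply Module.Invertible.bijective_of_surjective
  intro y
  obtain ⟨w, hw⟩ := hunit.exists_right_inv
  refine ⟨(y * w) ⊗ₜ ⟨u, hu⟩, ?_⟩
  rw [idealMul_tmul, mul_assoc, mul_comm w, hw, mul_one]

/-- `R' ⊗[R] I ≃ R'` when some element of the invertible ideal `I` becomes a unit in `R'`. -/
noncomputable def idealMulEquiv (I : Ideal R) [Module.Invertible R I] (u : R) (hu : u ∈ I)
    (hunit : IsUnit (algebraMap R R' u)) : R' ⊗[R] I ≃ₗ[R'] R' :=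
  LinearEquiv.ofBijective (idealMul I) (idealMul_bijective I u hu hunit)

@[simp] theorem idealMulEquiv_tmul (I : Ideal R) [Module.Invertible R I] (u : R) (hu : u ∈ I)
    (hunit : IsUnit (algebraMap R R' u)) (y : R') (x : I) :
    idealMulEquiv I u hu hunit (y ⊗ₜ x) = y * algebraMap R R' x :=
  idealMul_tmul I y x

/-- The map `R' ⊗[R] Hom_R(I, R) → R'`, `y ⊗ φ ↦ y * φ(u) * w`. -/
noncomputable def dualEval (I : Ideal R) (u : I) (w : R') : R' ⊗[R] Module.Dual R I →ₗ[R'] R' :=
  LinearMap.liftBaseChange R'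
    ((LinearMap.mulRight R w).comp
      ((Algebra.linearMap R R').comp (LinearMap.applyₗ (R := R) (M := I) (M₂ := R) u)))

@[simp] theorem dualEval_tmul (I : Ideal R) (u : I) (w : R') (y : R') (φ : Module.Dual R I) :
    dualEval I u w (y ⊗ₜ φ) = y * (algebraMap R R' (φ u) * w) := by
  simp [dualEval]

theorem dualEval_bijective (I : Ideal R) [Module.Invertible R I] (u : I) (w : R')
    (huw : algebraMap R R' u * w = 1) : Function.Bijective (dualEval I u w) := by
  apply Module.Invertible.bijective_of_surjective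
  intro y
  refine ⟨y ⊗ₜ I.subtype, ?_⟩
  rw [dualEval_tmul, Submodule.subtype_apply, huw, mul_one]

/-- `R' ⊗[R] Hom_R(I, R) ≃ R'` when `u ∈ I` becomes a unit in `R'`. -/
noncomputable def dualEvalEquiv (I : Ideal R) [Module.Invertible R I] (u : I) (w : R')
    (huw : algebraMap R R' u * w = 1) : R' ⊗[R] Module.Dual R I ≃ₗ[R'] R' :=
  LinearEquiv.ofBijective (dualEval I u w) (dualEval_bijective I u w huw)

@[simp] theorem dualEvalEquiv_tmul (I : Ideal R) [Module.Invertible R I] (u : I) (w : R')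
    (huw : algebraMap R R' u * w = 1) (y : R') (φ : Module.Dual R I) :
    dualEvalEquiv I u w huw (y ⊗ₜ φ) = y * (algebraMap R R' (φ u) * w) :=
  dualEval_tmul I u w y φ

end MulMap

namespace GlueData

variable {c : TwoChart A R0 R1 R01} (D : GlueData c)

/-- The basic identity of the gluing: `φ_{R01}(v) * x = φ(x) * v` for `x ∈ b1`. -/
theorem r1_coe_mul (φ : Module.Dual R1 D.b1) (x : D.b1) :
    ((D.r1 φ : D.I01) : R01) * algebraMap R1 R01 x = algebraMap R1 R01 (φ x) * D.v := by
  have h := dual_mul_comm (transposeBC D.bc_b1 φ) ⟨D.v, D.v_mem_J01⟩ (Algebra.idealMap R01 D.b1 x)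
  rw [transposeBC_apply] at h
  exact h

theorem invertible_I01 : Module.Invertible R01 D.I01 :=
  have := D.inv0
  Module.Invertible.congr D.bc_b0.equiv

instance instInv0 : Module.Invertible R0 D.b0 := D.inv0

instance instInv1 : Module.Invertible R1 D.b1 := D.inv1

instance instInv01 : Module.Invertible R01 D.I01 := D.invertible_I01

variable
  (hc0 : (algebraMap R0' R01').comp (algebraMap R0 R0') =
    (algebraMap R01 R01').comp (algebraMap R0 R01))
  (hc1 : (algebraMap R1' R01').comp (algebraMap R1 R1') =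
    (algebraMap R01 R01').comp (algebraMap R1 R01))

include hc0 in
theorem isUnit_u0_overlap {u0 : R0} (h0 : IsUnit (algebraMap R0 R0' u0)) :
    IsUnit (algebraMap R01 R01' (algebraMap R0 R01 u0)) := by
  have := RingHom.congr_fun hc0 u0
  simp only [RingHom.comp_apply] at this
  rw [← this]
  exact h0.map _

/-- **The base change of `M_v` is the Čech line of the image of `v`**, provided some `u0 ∈ b0`
and some `u1 ∈ b1` become units. -/
noncomputable def liftData (u0 : R0) (hu0 : u0 ∈ D.b0) (h0 : IsUnit (algebraMap R0 R0' u0))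
    (u1 : R1) (hu1 : u1 ∈ D.b1) (w1 : R1') (h1 : algebraMap R1 R1' u1 * w1 = 1)
    (u : R01'ˣ) (hu : (u : R01') = algebraMap R01 R01' D.v) :
    LiftData D.line (cechLine (A := A') (R0 := R0') (R1 := R1') u) where
  e0 := idealMulEquiv D.b0 u0 hu0 h0
  e1 := dualEvalEquiv D.b1 ⟨u1, hu1⟩ w1 h1
  e01 := idealMulEquiv D.I01 (algebraMap R0 R01 u0) (Ideal.mem_map_of_mem _ hu0)
      (isUnit_u0_overlap hc0 h0)
  comm0 := fun (x : D.b0) => by
    have := RingHom.congr_fun hc0 (x : R0)
    simp only [RingHom.comp_apply] at this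
    show idealMulEquiv D.I01 _ _ _ (1 ⊗ₜ Algebra.idealMap R01 D.b0 x) =
      algebraMap R0' R01' (idealMulEquiv D.b0 u0 hu0 h0 (1 ⊗ₜ x))
    rw [idealMulEquiv_tmul, idealMulEquiv_tmul, one_mul, one_mul, this]
    rfl
  comm1 := fun (φ : Module.Dual R1 D.b1) => by
    have hc := fun z => RingHom.congr_fun hc1 z
    simp only [RingHom.comp_apply] at hc
    show idealMulEquiv D.I01 _ _ _ (1 ⊗ₜ D.r1 φ) =
      (u : R01') * algebraMap R1' R01' (dualEvalEquiv D.b1 ⟨u1, hu1⟩ w1 h1 (1 ⊗ₜ φ))
    rw [idealMulEquiv_tmul, dualEvalEquiv_tmul, one_mul, one_mul, map_mul, hc, hu]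
    have key := congrArg (algebraMap R01 R01') (D.r1_coe_mul φ ⟨u1, hu1⟩)
    rw [map_mul, map_mul, ← hc] at key
    have hw : algebraMap R1' R01' (algebraMap R1 R1' u1) * algebraMap R1' R01' w1 = 1 := by
      rw [← map_mul, h1, map_one]
    calc algebraMap R01 R01' ((D.r1 φ : D.I01) : R01)
        = algebraMap R01 R01' ((D.r1 φ : D.I01) : R01) *
            (algebraMap R1' R01' (algebraMap R1 R1' u1) * algebraMap R1' R01' w1) := by
          rw [hw, mul_one]
      _ = (algebraMap R01 R01' ((D.r1 φ : D.I01) : R01) *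
            algebraMap R1' R01' (algebraMap R1 R1' u1)) * algebraMap R1' R01' w1 := by ring
      _ = _ := by rw [key]; ring

/-- The class of the base change of `M_v` is the Čech class of the image of `v`. -/
theorem bc_mk_line (c' : TwoChart A' R0' R1' R01')
    (u0 : R0) (hu0 : u0 ∈ D.b0) (h0 : IsUnit (algebraMap R0 R0' u0))
    (u1 : R1) (hu1 : u1 ∈ D.b1) (h1 : IsUnit (algebraMap R1 R1' u1))
    (u : R01'ˣ) (hu : (u : R01') = algebraMap R01 R01' D.v) :
    LinePic.bc hc0 hc1 c c' (LinePic.mk c D.line D.line_isLine) = cechClass c' u := by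
  obtain ⟨w1, hw1⟩ := h1.exists_right_inv
  exact LinePic.bc_mk hc0 hc1 c c' D.line_isLine
    (D.liftData hc0 hc1 u0 hu0 h0 u1 hu1 w1 hw1 u hu)

end GlueData

end Cube

end Fermat.Agent.T1B.Alg81
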