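/-
Fermat/Agent/T1B/Alg81/Assemble.lean  (helper81) -- T1B, brick T-ALG part ALG-b, hub form.

**Algebraisation of formal classes.**  `c0 : TwoChart W B0 B1 B01`, `O` a complete DVR over `W`
with `O ⊗[W] B0` finite over `O[t]`.  For `v ∈ O ⊗[W] B01`, a nonzerodivisor with
`v - 1 ∈ m (O ⊗[W] B01)`, there is a class `y ∈ J̃¹(O) ⊆ Pic X_O` whose base change to every
truncation `O / m^n` is the Čech class of the image of `v`.

`y` is the class of the explicit line `M_v` of `GlueLine.lean` for the ideals `b0`, `b1` of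
helper15's `Alg15.AlgData`.
-/
import Mathlib
import Fermat.Agent.T1.RedIface75
import Fermat.Agent.T1.CechLine75
import Fermat.Agent.T1B.Alg15.Hub
import Fermat.Agent.T1B.Alg81.GlueLine

set_option autoImplicit false
set_option linter.unusedSectionVars false

open TensorProduct Polynomial IsLocalRing

namespace Fermat.Agent.T1B.Alg81

open Fermat.Agent.Jac Fermat.Agent.Jac.LineOps39 Fermat.Agent.Jac.JSmooth85Alg
  Fermat.Agent.Jac.JGroup85Pic Fermat.Agent.T1.RedIface75 Fermat.Agent.Jac.BaseChange75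
  Fermat.Agent.T1B.Alg15
open scoped Fermat.Agent.Jac.BaseChange75

universe u

/-! ### Images of `1 + m S` in `A' ⊗ B` -/

section NilUnit

variable {W O A' B : Type u} [CommRing W] [CommRing O] [CommRing A'] [CommRing B]
  [Algebra W O] [Algebra W A'] [Algebra W B] [Algebra O A'] [IsScalarTower W O A']

theorem map_le_comap_of_forall_mem (m : Ideal O) (K : Ideal (A' ⊗[W] B))
    (hm : ∀ a ∈ m, algebraMap A' (A' ⊗[W] B) (algebraMap O A' a) ∈ K) :
    m.map (algebraMap O (O ⊗[W] B)) ≤ K.comap (algebraMap (O ⊗[W] B) (A' ⊗[W] B)) := by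
  rw [Ideal.map_le_iff_le_comap]
  intro a ha
  rw [Ideal.mem_comap, Ideal.mem_comap]
  have h1 : algebraMap (O ⊗[W] B) (A' ⊗[W] B) (algebraMap O (O ⊗[W] B) a) =
      algebraMap A' (A' ⊗[W] B) (algebraMap O A' a) := by
    rw [Algebra.TensorProduct.algebraMap_apply, algebraMap_left_tmul,
      Algebra.TensorProduct.algebraMap_apply]
    simp
  rw [h1]
  exact hm a ha

/-- If `m` maps to nilpotent elements of `A'`, an element of `1 + m (O ⊗ B)` maps to a unit of
`A' ⊗ B`. -/
theorem isUnit_algebraMap_of_sub_one_mem (m : Ideal O)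
    (hm : ∀ a ∈ m, IsNilpotent (algebraMap O A' a)) (x : O ⊗[W] B)
    (hx : x - 1 ∈ m.map (algebraMap O (O ⊗[W] B))) :
    IsUnit (algebraMap (O ⊗[W] B) (A' ⊗[W] B) x) := by
  have h := map_le_comap_of_forall_mem (B := B) m (nilradical (A' ⊗[W] B))
    (fun a ha => (mem_nilradical).2 ((hm a ha).map _)) hx
  rw [Ideal.mem_comap, mem_nilradical, map_sub, map_one] at h
  have := h.isUnit_add_one
  rwa [sub_add_cancel] at this

/-- If `m` maps to zero in `A'`, an element of `1 + m (O ⊗ B)` maps to `1` in `A' ⊗ B`. -/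
theorem algebraMap_eq_one_of_sub_one_mem (m : Ideal O)
    (hm : ∀ a ∈ m, algebraMap O A' a = 0) (x : O ⊗[W] B)
    (hx : x - 1 ∈ m.map (algebraMap O (O ⊗[W] B))) :
    algebraMap (O ⊗[W] B) (A' ⊗[W] B) x = 1 := by
  have h := map_le_comap_of_forall_mem (B := B) m (⊥ : Ideal (A' ⊗[W] B))
    (fun a ha => by rw [hm a ha, map_zero]; exact Ideal.zero_mem _) hx
  rw [Ideal.mem_comap, Ideal.mem_bot, map_sub, map_one, sub_eq_zero] at h
  exact h

end NilUnit

/-! ### The class `y_v` -/

section Main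

variable {W B0 B1 B01 : Type u} [CommRing W] [CommRing B0] [CommRing B1] [CommRing B01]
  [Algebra W B0] [Algebra W B1] [Algebra W B01] [Algebra B0 B01] [Algebra B1 B01]
  [IsScalarTower W B0 B01] [IsScalarTower W B1 B01]
  (c0 : TwoChart W B0 B1 B01)
  (O : Type u) [CommRing O] [IsLocalRing O] [Algebra W O]

/-- The gluing data of `M_v` from helper15's polynomial data. -/
noncomputable def glueOfAlgData {v : O ⊗[W] B01} (hv : v ∈ nonZeroDivisors (O ⊗[W] B01))
    (D : AlgData (O := O) (c0.baseChange O).t v) : GlueData (c0.baseChange O) :=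
  have := (c0.baseChange O).away0
  have := (c0.baseChange O).away1
  { b0 := D.b0
    b1 := D.b1 (O ⊗[W] B1)
    v := v
    hv := hv
    inv0 := D.invertible_b0 hv
    inv1 := D.invertible_b1 (c0.baseChange O).s (c0.baseChange O).ts hv
    hmul := by rw [D.map_b1 (c0.baseChange O).s, D.map_b0]; exact D.a0_mul_aInf
    hsup := by rw [D.map_b1 (c0.baseChange O).s, D.map_b0]; exact D.a0_sup_aInf }

/-- The class `y_v ∈ Pic X_O` of the line `M_v`. -/
noncomputable def algClass {v : O ⊗[W] B01} (hv : v ∈ nonZeroDivisors (O ⊗[W] B01))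
    (D : AlgData (O := O) (c0.baseChange O).t v) : PicX c0 O :=
  LinePic.mk (c0.baseChange O) (glueOfAlgData c0 O hv D).line (glueOfAlgData c0 O hv D).line_isLine

/-- **Base change of `y_v`** to an `O`-algebra `A'` in which `m_O` is nilpotent: the Čech class of
the image of `v`. -/
theorem map_algClass {v : O ⊗[W] B01} (hv : v ∈ nonZeroDivisors (O ⊗[W] B01))
    (D : AlgData (O := O) (c0.baseChange O).t v)
    (A' : Type u) [CommRing A'] [Algebra W A'] [Algebra O A'] [IsScalarTower W O A']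
    (hm : ∀ a ∈ maximalIdeal O, IsNilpotent (algebraMap O A' a))
    (u : (A' ⊗[W] B01)ˣ) (hu : (u : A' ⊗[W] B01) = algebraMap (O ⊗[W] B01) (A' ⊗[W] B01) v) :
    PicX.map c0 O A' (algClass c0 O hv D) = cechClass (c0.baseChange A') u :=
  (glueOfAlgData c0 O hv D).bc_mk_line (square_comm W O A' B0 B01) (square_comm W O A' B1 B01)
    (c0.baseChange A') D.u0 D.u0_mem_b0
    (isUnit_algebraMap_of_sub_one_mem (maximalIdeal O) hm D.u0 D.u0_sub_one_mem)
    (D.u1 (c0.baseChange O).s) (D.u1_mem_b1 (c0.baseChange O).s (c0.baseChange O).ts)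
    (isUnit_algebraMap_of_sub_one_mem (maximalIdeal O) hm _ (D.u1_sub_one_mem _)) u hu

end Main

/-! ### The DVR form: `y_v ∈ J̃¹(O)` and the truncations -/

section DVR

variable {W B0 B1 B01 : Type u} [CommRing W] [CommRing B0] [CommRing B1] [CommRing B01]
  [Algebra W B0] [Algebra W B1] [Algebra W B01] [Algebra B0 B01] [Algebra B1 B01]
  [IsScalarTower W B0 B01] [IsScalarTower W B1 B01]
  (c0 : TwoChart W B0 B1 B01)
  (O : Type u) [CommRing O] [IsDomain O] [IsDiscreteValuationRing O] [Algebra W O]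

/-- `y_v` has trivial special fibre. -/
theorem algClass_mem_J1 {v : O ⊗[W] B01} (hv : v ∈ nonZeroDivisors (O ⊗[W] B01))
    (hv1 : v - 1 ∈ (maximalIdeal O).map (algebraMap O (O ⊗[W] B01)))
    (D : AlgData (O := O) (c0.baseChange O).t v) : algClass c0 O hv D ∈ J1 c0 O := by
  have hm0 : ∀ a ∈ maximalIdeal O, algebraMap O (ResidueField O) a = 0 := fun a ha =>
    (IsLocalRing.residue_eq_zero_iff a).2 ha
  have hm : ∀ a ∈ maximalIdeal O, IsNilpotent (algebraMap O (ResidueField O) a) := fun a ha => by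
    rw [hm0 a ha]; exact IsNilpotent.zero
  have h1 := algebraMap_eq_one_of_sub_one_mem (A' := ResidueField O) (maximalIdeal O) hm0 v hv1
  have := map_algClass c0 O hv D (ResidueField O) hm 1 (by rw [Units.val_one, h1])
  show red c0 O (algClass c0 O hv D) = 1
  unfold red
  rw [this]
  exact map_one (Fermat.Agent.T1.CechLine75.cechClassHom (c0.baseChange (ResidueField O)))

/-- The truncations of `y_v` are the Čech classes of the images of `v`. -/
theorem map_trunc_algClass {v : O ⊗[W] B01} (hv : v ∈ nonZeroDivisors (O ⊗[W] B01))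
    (D : AlgData (O := O) (c0.baseChange O).t v) (n : ℕ) (u : (Trunc O n ⊗[W] B01)ˣ)
    (hu : (u : Trunc O n ⊗[W] B01) = algebraMap (O ⊗[W] B01) (Trunc O n ⊗[W] B01) v) :
    PicX.map c0 O (Trunc O n) (algClass c0 O hv D) = cechClass (c0.baseChange (Trunc O n)) u := by
  refine map_algClass c0 O hv D (Trunc O n) (fun a ha => ⟨n, ?_⟩) u hu
  rw [← map_pow]
  exact Ideal.Quotient.eq_zero_iff_mem.2 (Ideal.pow_mem_pow ha n)

/-- **T-ALG (ALG-b), main statement.**  `O` a complete DVR over `W`, `O ⊗[W] B0` finite over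
`O[t]`; every `v ∈ 1 + m (O ⊗[W] B01)` which is a nonzerodivisor algebraises: there is
`y ∈ J̃¹(O)` whose truncation modulo `m^n` is the Čech class of `v mod m^n` for every `n`. -/
theorem exists_algebraisation [IsAdicComplete (maximalIdeal O) O]
    (hfin0 : Module.Finite O[X] (Module.AEval O (O ⊗[W] B0) (c0.baseChange O).t))
    (v : O ⊗[W] B01) (hv : v ∈ nonZeroDivisors (O ⊗[W] B01))
    (hv1 : v - 1 ∈ (maximalIdeal O).map (algebraMap O (O ⊗[W] B01))) :
    ∃ y ∈ J1 c0 O, ∀ (n : ℕ) (u : (Trunc O n ⊗[W] B01)ˣ),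
      (u : Trunc O n ⊗[W] B01) = algebraMap (O ⊗[W] B01) (Trunc O n ⊗[W] B01) v →
      PicX.map c0 O (Trunc O n) y = cechClass (c0.baseChange (Trunc O n)) u := by
  obtain ⟨D⟩ := exists_algData_twoChart (c0.baseChange O) hfin0 v hv1
  exact ⟨algClass c0 O hv D, algClass_mem_J1 c0 O hv hv1 D,
    fun n u hu => map_trunc_algClass c0 O hv D n u hu⟩

/-- The image of `v ∈ 1 + m (O ⊗ B01)` in `(O/m^n) ⊗ B01` is a unit. -/
theorem isUnit_trunc (v : O ⊗[W] B01)
    (hv1 : v - 1 ∈ (maximalIdeal O).map (algebraMap O (O ⊗[W] B01))) (n : ℕ) :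
    IsUnit (algebraMap (O ⊗[W] B01) (Trunc O n ⊗[W] B01) v) := by
  refine isUnit_algebraMap_of_sub_one_mem (A' := Trunc O n) (maximalIdeal O)
    (fun a ha => ⟨n, ?_⟩) v hv1
  rw [← map_pow]
  exact Ideal.Quotient.eq_zero_iff_mem.2 (Ideal.pow_mem_pow ha n)

/-- **T-ALG, unit form**: with the units `(isUnit_trunc ..).unit`. -/
theorem exists_algebraisation' [IsAdicComplete (maximalIdeal O) O]
    (hfin0 : Module.Finite O[X] (Module.AEval O (O ⊗[W] B0) (c0.baseChange O).t))
    (v : O ⊗[W] B01) (hv : v ∈ nonZeroDivisors (O ⊗[W] B01))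
    (hv1 : v - 1 ∈ (maximalIdeal O).map (algebraMap O (O ⊗[W] B01))) :
    ∃ y ∈ J1 c0 O, ∀ n : ℕ, PicX.map c0 O (Trunc O n) y =
      cechClass (c0.baseChange (Trunc O n)) (isUnit_trunc O v hv1 n).unit := by
  obtain ⟨y, hy, h⟩ := exists_algebraisation c0 O hfin0 v hv hv1
  exact ⟨y, hy, fun n => h n _ (IsUnit.unit_spec _)⟩

end DVR

end Fermat.Agent.T1B.Alg81
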