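/-
Fermat/Agent/T1B/Alg81/AlgUnits.lean  (helper81) -- T1B, brick T-ALG part ALG-b:
the target Props `Toric11.AlgUnits`, `Toric11.AlgUnitsMap`, `Toric11.AlgCoord` of helper11's
wrapper `Toric11/AlgLim.lean`, from `Alg81.exists_algebraisation`.
-/
import Mathlib
import Fermat.Agent.T1B.Toric11.AlgLim
import Fermat.Agent.T1B.Alg81.Assemble

set_option autoImplicit false
set_option linter.unusedSectionVars false

open TensorProduct Polynomial IsLocalRing

namespace Fermat.Agent.T1B.Alg81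

open Fermat.Agent.Jac Fermat.Agent.Jac.JGroup85Pic Fermat.Agent.T1.RedIface75
  Fermat.Agent.Jac.BaseChange75 Fermat.Agent.T1B.Toric11
open scoped Fermat.Agent.Jac.BaseChange75

universe u

variable {W B0 B1 B01 : Type u} [CommRing W] [CommRing B0] [CommRing B1] [CommRing B01]
  [Algebra W B0] [Algebra W B1] [Algebra W B01] [Algebra B0 B01] [Algebra B1 B01]
  [IsScalarTower W B0 B01] [IsScalarTower W B1 B01]
  (c0 : TwoChart W B0 B1 B01)
  (O : Type u) [CommRing O] [IsDomain O] [IsDiscreteValuationRing O] [Algebra W O]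

/-- **T-ALG**: `Toric11.AlgUnits` for a complete DVR `O` with `O ⊗ B0` finite over `O[t]`, provided
the one-units of `O ⊗ B01` are nonzerodivisors. -/
theorem algUnits [IsAdicComplete (maximalIdeal O) O]
    (hfin0 : Module.Finite O[X] (Module.AEval O (O ⊗[W] B0) (c0.baseChange O).t))
    (hnzd : ∀ v : O ⊗[W] B01, v - 1 ∈ (maximalIdeal O).map (algebraMap O (O ⊗[W] B01)) →
      v ∈ nonZeroDivisors (O ⊗[W] B01)) : AlgUnits c0 O := by
  intro v hv1
  obtain ⟨y, hy, h⟩ := exists_algebraisation' c0 O hfin0 v (hnzd v hv1) hv1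
  exact ⟨⟨y, hy⟩, fun n => ⟨(isUnit_trunc O v hv1 n).unit, IsUnit.unit_spec _, h n⟩⟩

/-- One-units of a domain `O ⊗ B01` with nonzero special fibre are nonzerodivisors. -/
theorem mem_nonZeroDivisors_of_sub_one_mem [IsDomain (O ⊗[W] B01)]
    (hne : (maximalIdeal O).map (algebraMap O (O ⊗[W] B01)) ≠ ⊤) (v : O ⊗[W] B01)
    (hv1 : v - 1 ∈ (maximalIdeal O).map (algebraMap O (O ⊗[W] B01))) :
    v ∈ nonZeroDivisors (O ⊗[W] B01) := by
  refine mem_nonZeroDivisors_of_ne_zero fun h0 => hne ?_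
  rw [Ideal.eq_top_iff_one]
  rw [h0, zero_sub] at hv1
  simpa using neg_mem hv1

/-- **T-ALG**, domain form. -/
theorem algUnits_of_isDomain [IsAdicComplete (maximalIdeal O) O] [IsDomain (O ⊗[W] B01)]
    (hfin0 : Module.Finite O[X] (Module.AEval O (O ⊗[W] B0) (c0.baseChange O).t))
    (hne : (maximalIdeal O).map (algebraMap O (O ⊗[W] B01)) ≠ ⊤) : AlgUnits c0 O :=
  algUnits c0 O hfin0 (mem_nonZeroDivisors_of_sub_one_mem O hne)

/-- **T-ALG in coordinates**, the input `hA` of `Toric11.exists_uJ_eq` / `exists_uJ_eq_ι`. -/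
theorem algCoord_of_isDomain [IsAdicComplete (maximalIdeal O) O] [IsDomain (O ⊗[W] B01)]
    (hfin0 : Module.Finite O[X] (Module.AEval O (O ⊗[W] B0) (c0.baseChange O).t))
    (hne : (maximalIdeal O).map (algebraMap O (O ⊗[W] B01)) ≠ ⊤) {g : ℕ} (b : Fin g → B01) :
    AlgCoord c0 O b :=
  (algUnits_of_isDomain c0 O hfin0 hne).algCoord b

end Fermat.Agent.T1B.Alg81
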