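/-
Fermat/Agent/T1B/Alg81/WeierstrassPoly.lean  (helper81) -- T1B, brick T-ALG, Mathlib only.

**Weierstrass (Hensel) factorisation of POLYNOMIALS over a complete local ring.**
If `Q ∈ A[X]` is a polynomial over a complete local ring `A` whose reduction is nonzero, then
`Q = Q₀ * Q∞` with `Q₀ ∈ A[X]` distinguished (monic, `≡ X^a` modulo the maximal ideal) and
`Q∞ ∈ A[X]` a polynomial which is a unit as a power series (`Q∞(0)` is a unit); moreover `Q₀` and
`Q∞` are coprime in `A[X]`.  (Mathlib has the statement for power series; the point here is that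
the unit factor of a polynomial is again a polynomial, by uniqueness of Weierstrass division.)
-/
import Mathlib

set_option autoImplicit false

open Polynomial PowerSeries

namespace Fermat.Agent.T1B.Alg81

variable {A : Type*} [CommRing A] [IsLocalRing A]

/-- The order of the reduction of a distinguished polynomial is its degree. -/
theorem order_map_coe_of_isDistinguished {f : A[X]}
    (hf : f.IsDistinguishedAt (IsLocalRing.maximalIdeal A)) :
    ((f : A⟦X⟧).map (Ideal.Quotient.mk (IsLocalRing.maximalIdeal A))).order.toNat =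
      f.natDegree := by
  have h := hf.map_eq_X_pow
  have h2 : (f : A⟦X⟧).map (Ideal.Quotient.mk (IsLocalRing.maximalIdeal A)) =
      ((f.map (Ideal.Quotient.mk (IsLocalRing.maximalIdeal A)) : (A ⧸ _)[X]) : (A ⧸ _)⟦X⟧) := by
    ext i
    simp
  rw [h2, h]
  simp [PowerSeries.order_X_pow]

variable [IsAdicComplete (IsLocalRing.maximalIdeal A) A]

/-- **Weierstrass factorisation of a polynomial**: the unit factor is a polynomial. -/
theorem exists_polynomial_weierstrass (Q : A[X])
    (hQ : (Q : A⟦X⟧).map (IsLocalRing.residue A) ≠ 0) :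
    ∃ Q₀ Qinf : A[X], Q = Q₀ * Qinf ∧
      Q₀.IsDistinguishedAt (IsLocalRing.maximalIdeal A) ∧
      Q₀.natDegree = ((Q : A⟦X⟧).map (IsLocalRing.residue A)).order.toNat ∧
      IsUnit (Qinf : A⟦X⟧) ∧ IsUnit (Qinf.coeff 0) ∧ IsCoprime Q₀ Qinf := by
  obtain ⟨f, h, H⟩ := (Q : A⟦X⟧).exists_isWeierstrassFactorization hQ
  have hfd := H.isDistinguishedAt
  have hmon : f.Monic := hfd.monic
  have hford := order_map_coe_of_isDistinguished hfd
  have hfne : (f : A⟦X⟧).map (IsLocalRing.residue A) ≠ 0 := by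
    intro h0
    have : ((f : A⟦X⟧).map (Ideal.Quotient.mk (IsLocalRing.maximalIdeal A))).order.toNat = 0 := by
      change ((f : A⟦X⟧).map (IsLocalRing.residue A)).order.toNat = 0
      rw [h0]; simp
    rw [hford] at this
    -- `f` is monic of degree `0`, so `f = 1`, whose reduction is not zero
    have hf1 : f = 1 := Polynomial.eq_one_of_monic_natDegree_zero hmon this
    rw [hf1] at h0
    simp at h0
  -- the two Weierstrass divisions of `Q` by `f`
  have D1 : (Q : A⟦X⟧).IsWeierstrassDivision (f : A⟦X⟧) ((Q /ₘ f : A[X]) : A⟦X⟧) (Q %ₘ f) := by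
    refine ⟨?_, ?_⟩
    · rw [hford]
      calc (Q %ₘ f).degree < f.degree := Polynomial.degree_modByMonic_lt Q hmon
        _ = (f.natDegree : WithBot ℕ) := Polynomial.degree_eq_natDegree hmon.ne_zero
    · have := Polynomial.modByMonic_add_div Q f
      have h2 : Q = f * (Q /ₘ f) + Q %ₘ f := by rw [add_comm]; exact this.symm
      conv_lhs => rw [h2]
      simp
  have D2 : (Q : A⟦X⟧).IsWeierstrassDivision (f : A⟦X⟧) h 0 := by
    refine ⟨?_, ?_⟩
    · simp only [Polynomial.degree_zero]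
      exact WithBot.bot_lt_coe _
    · simp [H.eq_mul]
  obtain ⟨e1, e2⟩ := D1.elim hfne D2
  have hQ0 : Q = f * (Q /ₘ f) := by
    have := Polynomial.modByMonic_add_div Q f
    rw [e2, zero_add] at this
    exact this.symm
  have hu : IsUnit ((Q /ₘ f : A[X]) : A⟦X⟧) := e1 ▸ H.isUnit
  have hu0 : IsUnit ((Q /ₘ f).coeff 0) := by
    have := (PowerSeries.isUnit_iff_constantCoeff).1 hu
    simpa using this
  refine ⟨f, Q /ₘ f, hQ0, hfd, ?_, hu, hu0, ?_⟩
  · exact H.natDegree_eq_toNat_order_map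
  · -- coprimality: `Q /ₘ f` is a unit of `A[X]/(f) ≃ A⟦X⟧/(f)`
    let e := hfd.algEquivQuotient
    have he : e (Ideal.Quotient.mk _ (Q /ₘ f)) =
        Ideal.Quotient.mk _ ((Q /ₘ f : A[X]) : A⟦X⟧) := rfl
    have hunit : IsUnit (Ideal.Quotient.mk (Ideal.span {f}) (Q /ₘ f)) := by
      have h1 : IsUnit (e (Ideal.Quotient.mk _ (Q /ₘ f))) := by
        rw [he]; exact hu.map _
      exact (MulEquiv.isUnit_map e.toMulEquiv).1 h1
    obtain ⟨w, hw⟩ := hunit.exists_right_inv
    obtain ⟨v, rfl⟩ := Ideal.Quotient.mk_surjective w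
    rw [← map_mul, ← map_one (Ideal.Quotient.mk (Ideal.span {f})),
      Ideal.Quotient.mk_eq_mk_iff_sub_mem, Ideal.mem_span_singleton'] at hw
    obtain ⟨c, hc⟩ := hw
    exact ⟨-c, v, by linear_combination (-1 : A[X]) * hc⟩

/-- A polynomial with unit constant coefficient is coprime to the variable. -/
theorem isCoprime_X_of_isUnit_coeff_zero {R : Type*} [CommRing R] {p : R[X]}
    (hp : IsUnit (p.coeff 0)) : IsCoprime (Polynomial.X : R[X]) p := by
  obtain ⟨u, hu⟩ := hp
  refine ⟨-(Polynomial.C (↑u⁻¹ : R) * p.divX), Polynomial.C (↑u⁻¹ : R), ?_⟩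
  have h := Polynomial.divX_mul_X_add p
  have h1 : (Polynomial.C (↑u⁻¹ : R) : R[X]) * Polynomial.C (p.coeff 0) = 1 := by
    rw [← Polynomial.C_mul, ← hu, Units.inv_mul, Polynomial.C_1]
  calc -(Polynomial.C (↑u⁻¹ : R) * p.divX) * Polynomial.X + Polynomial.C (↑u⁻¹ : R) * p
      = -(Polynomial.C (↑u⁻¹ : R) * p.divX) * Polynomial.X +
          Polynomial.C (↑u⁻¹ : R) * (p.divX * Polynomial.X + Polynomial.C (p.coeff 0)) := by
        rw [h]
    _ = Polynomial.C (↑u⁻¹ : R) * Polynomial.C (p.coeff 0) := by ring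
    _ = 1 := h1

/-- **Weierstrass factorisation of a polynomial `Q ≡ c t^a`**, `c` a unit of the residue field:
`Q = Q₀ * Q∞` with `Q₀` monic of degree `a`, `Q₀ ≡ t^a`, `Q∞ ≡ c`, `Q∞(0)` a unit, and `Q∞` coprime
to `Q₀`, to `t` and to `t * Q₀`. -/
theorem exists_polynomial_weierstrass_of_map_eq (Q : A[X]) (a : ℕ)
    (c : IsLocalRing.ResidueField A) (hc : c ≠ 0)
    (hQ : Q.map (IsLocalRing.residue A) = Polynomial.C c * Polynomial.X ^ a) :
    ∃ Q₀ Qinf : A[X], Q = Q₀ * Qinf ∧ Q₀.Monic ∧ Q₀.natDegree = a ∧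
      Q₀.map (IsLocalRing.residue A) = Polynomial.X ^ a ∧
      Qinf.map (IsLocalRing.residue A) = Polynomial.C c ∧
      IsUnit (Qinf.coeff 0) ∧ IsCoprime Q₀ Qinf ∧ IsCoprime (Polynomial.X : A[X]) Qinf ∧
      IsCoprime (Polynomial.X * Q₀) Qinf := by
  have hcoe : (Q : A⟦X⟧).map (IsLocalRing.residue A) =
      ((Q.map (IsLocalRing.residue A) : (IsLocalRing.ResidueField A)[X]) :
        (IsLocalRing.ResidueField A)⟦X⟧) := by
    ext i
    simp
  have hne : (Q : A⟦X⟧).map (IsLocalRing.residue A) ≠ 0 := by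
    rw [hcoe, hQ]
    intro h0
    have h1 : (Polynomial.C c * Polynomial.X ^ a : (IsLocalRing.ResidueField A)[X]) = 0 := by
      apply Polynomial.coe_injective (R := IsLocalRing.ResidueField A)
      simpa using h0
    have h2 := congrArg (fun p => Polynomial.coeff p a) h1
    simp at h2
    exact hc h2
  have hord : ((Q : A⟦X⟧).map (IsLocalRing.residue A)).order.toNat = a := by
    rw [hcoe, hQ]
    have h1 : (((Polynomial.C c * Polynomial.X ^ a : (IsLocalRing.ResidueField A)[X]) :
        (IsLocalRing.ResidueField A)⟦X⟧)).order = (a : ℕ∞) := by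
      rw [PowerSeries.order_eq_nat]
      refine ⟨?_, fun i hi => ?_⟩
      · rw [Polynomial.coeff_coe, Polynomial.coeff_C_mul_X_pow, if_pos rfl]
        exact hc
      · rw [Polynomial.coeff_coe, Polynomial.coeff_C_mul_X_pow, if_neg hi.ne]
    rw [h1]
    rfl
  obtain ⟨Q₀, Qinf, hmul, hdist, hdeg, -, hu0, hcop⟩ := exists_polynomial_weierstrass Q hne
  rw [hord] at hdeg
  have hQ₀map : Q₀.map (IsLocalRing.residue A) = Polynomial.X ^ a := by
    have := hdist.map_eq_X_pow
    rw [hdeg] at this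
    exact this
  have hQinfmap : Qinf.map (IsLocalRing.residue A) = Polynomial.C c := by
    have h1 : Q.map (IsLocalRing.residue A) =
        Q₀.map (IsLocalRing.residue A) * Qinf.map (IsLocalRing.residue A) := by
      rw [hmul, Polynomial.map_mul]
    rw [hQ, hQ₀map, mul_comm (Polynomial.C c)] at h1
    exact (mul_left_cancel₀ (pow_ne_zero a Polynomial.X_ne_zero) h1).symm
  have hX := isCoprime_X_of_isUnit_coeff_zero hu0
  exact ⟨Q₀, Qinf, hmul, hdist.monic, hdeg, hQ₀map, hQinfmap, hu0, hcop, hX,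
    IsCoprime.mul_left hX hcop⟩

end Fermat.Agent.T1B.Alg81
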